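import Fermat.Agent.SM3.Wild
import Fermat.Agent.LD8.Main

/-!
# The hypothesis on wild places
-/

set_option autoImplicit false
set_option linter.unusedSectionVars false

noncomputable section

open AlgebraicCurve ModularCurve IntermediateField HahnSeries

namespace Fermat.Agent.SM3

open Fermat.Agent.FunField Fermat.Agent.HeckeRed

/-- wild places, pointwise form -/
theorem dvd_corr_single (A : ValuationSubring (AlgebraicClosure ℚ)) {κ : Type*} [Field κ]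
    [IsAlgClosed κ] (π : A →+* κ) [IsLocalHom π] (hπ : Function.Surjective π) (N : ℕ) [NeZero N]
    [CharP κ 3] (h3N : ¬ 3 ∣ N) (ℓ : ℕ) [hℓ : Fact ℓ.Prime] [NeZero ℓ] (hℓ3 : ℓ ≠ 3)
    (hℓN : ¬ ℓ ∣ N) (v : Place κ (modularFunctionFieldFullC κ N))
    (h0 : 0 < v.ord (HeckeRed.jF κ N)) (h3 : ¬ (3 : ℤ) ∣ v.ord (HeckeRed.jF κ N))
    (w : Place κ (modularFunctionFieldFullC κ N)) :
    (3 : ℤ) ∣ Divisor.correspondence (beta1 κ N ℓ) (alpha1 κ N ℓ)
      (HeckeRed.isIntegral_of_isFF (beta1 κ N ℓ)) (HeckeRed.isIntegral_of_isFF (alpha1 κ N ℓ))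
      (Finsupp.single v 1) w -
      ((ℓ : ℤ) + 1) * (Finsupp.single v (1 : ℤ) : Divisor κ (modularFunctionFieldFullC κ N)) w := by
  have hN : (N : κ) ≠ 0 := fun h => h3N ((CharP.cast_eq_zero_iff κ 3 N).mp h)
  have hℓ0 : (ℓ : κ) ≠ 0 := by
    intro h
    exact hℓ3 ((Nat.prime_dvd_prime_iff_eq Nat.prime_three hℓ.out).mp
      ((CharP.cast_eq_zero_iff κ 3 ℓ).mp h)).symm
  obtain ⟨E, hE⟩ := corr_single_qb A π hπ N hN hℓ.out hℓN hℓ0 h0 h3
  rw [hE, Finsupp.add_apply, Finsupp.smul_apply, Finsupp.smul_apply, smul_eq_mul, smul_eq_mul]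
  exact ⟨E w, by ring⟩

/-- **[W]** -/
theorem hypW (A : ValuationSubring (AlgebraicClosure ℚ)) {κ : Type*} [Field κ]
    [IsAlgClosed κ] (π : A →+* κ) [IsLocalHom π] (hπ : Function.Surjective π) (N : ℕ) [NeZero N]
    [CharP κ 3] (h3N : ¬ 3 ∣ N) : LD8.HypW κ N :=
  fun ℓ _ _ hℓ3 hℓN v h0 h3 w => dvd_corr_single A π hπ N h3N ℓ hℓ3 hℓN v h0 h3 w

end Fermat.Agent.SM3
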