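import Fermat.Agent.ZAL.CMPts

/-!
# Places over `j = 0` of the function field of `X₀(M)`, characteristic zero

The places `v` with `0 < v.ord j`, `¬ 3 ∣ v.ord j` are the elliptic points of order `3`.
-/

set_option autoImplicit false
set_option linter.unusedSectionVars false
set_option linter.style.haveILetI false

noncomputable section

open UpperHalfPlane Function ModularCurve Filter ModularForm AlgebraicCurve WithZero
  CongruenceSubgroup
open scoped Manifold MatrixGroups Topology ModularForm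

namespace Fermat.Agent.SM3

open Fermat.Agent.X0Places Fermat.Agent.FunField Fermat.Agent.FunField.PlaceLemmas
open Fermat.Agent.TorsCmp Fermat.Agent.GalJ Fermat.Agent.Degen
open Fermat.Agent.ZAL
open AlgebraicCurve.SemilinearAut
open Matrix.SpecialLinearGroup (mapGL)
open Fermat.Agent.JInv (rho jInv)

variable {L : Type*} [Field L] [Algebra ℚ L] [IsAlgClosed L] {ι : L →+* ℂ}
variable {M : ℕ} [NeZero M]

theorem idx_aux {σ : ℍ} {v : Place L (FF L M)} (hv : IsPt ι σ v) {τ : ℍ} {a : L}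
    (hτ : jInv τ = ι a) {g : SL(2, ℤ)} (hg : g • τ = τ)
    (hord : orderOf (derivAt g τ) = ordJ τ)
    (hfix : ∀ x : XN M, g • x = x ∨
      ordJ τ ≤ Nat.card (MulAction.orbit (Subgroup.zpowers g) x)) {g1 : SL(2, ℤ)}
    (h1 : g1 • τ = σ) : ∃ e c : ℕ, 0 < e ∧ 0 < c ∧ c * e = ordJ τ ∧
      (∀ x : FF L M, x ≠ 0 → valMer σ (toMer ι M x) = exp (-((e : ℤ) * v.ord x))) ∧
      v.ord (jF L M - algebraMap L (FF L M) a) = c ∧ (c = 1 → g1 * (g * g1⁻¹) ∈ Gamma0 M) := by
  have H := orbitHyp_tau ι M (finrank_jF L M) hτ hg hord hfix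
  have e1 := mk_sigma_place (M := M) hτ g1⁻¹
  rw [inv_inv, h1] at e1
  have e2 := hv.unique e1
  have hcard := H.card_mul_idx ((g1⁻¹ : SL(2, ℤ)) : XN M)
  have hordt := H.ord_eq ((g1⁻¹ : SL(2, ℤ)) : XN M)
  rw [← e2] at hordt
  have h4 : (embTau ι M τ a hτ).e0 = ordJ τ := rfl
  rw [h4] at hcard
  have hpos := ordJ_pos τ
  refine ⟨(embTau ι M τ a hτ).idx ((g1⁻¹ : SL(2, ℤ)) : XN M),
    Nat.card (MulAction.orbit (Subgroup.zpowers g) ((g1⁻¹ : SL(2, ℤ)) : XN M)),
    (embTau ι M τ a hτ).idx_pos _, ?_, hcard, fun y hy => ?_, hordt, fun hc1 => ?_⟩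
  · by_contra h6
    have h7 : Nat.card (MulAction.orbit (Subgroup.zpowers g)
      ((g1⁻¹ : SL(2, ℤ)) : XN M)) = 0 := by omega
    rw [h7, zero_mul] at hcard
    omega
  · have h3 := (embTau ι M τ a hτ).w_eq ((g1⁻¹ : SL(2, ℤ)) : XN M) hy
    rw [← e2] at h3
    rw [← h3]
    show _ = valMer τ (sigma ι M ((g1⁻¹ : SL(2, ℤ)) : XN M) y)
    rw [sigma_mk, valMer_compMer, inv_inv, h1]
  · have h4 : Subsingleton (MulAction.orbit (Subgroup.zpowers g) ((g1⁻¹ : SL(2, ℤ)) : XN M)) :=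
      (Nat.card_eq_one_iff_unique.mp hc1).1
    have h5 : g • ((g1⁻¹ : SL(2, ℤ)) : XN M) ∈
        MulAction.orbit (Subgroup.zpowers g) ((g1⁻¹ : SL(2, ℤ)) : XN M) :=
      ⟨⟨_, Subgroup.mem_zpowers _⟩, rfl⟩
    have h6 := h4.elim ⟨_, h5⟩ ⟨_, MulAction.mem_orbit_self _⟩
    have h7 : ((g * g1⁻¹ : SL(2, ℤ)) : XN M) = ((g1⁻¹ : SL(2, ℤ)) : XN M) :=
      congrArg Subtype.val h6
    have h8 := (QuotientGroup.eq.mp h7.symm)
    rw [inv_inv] at h8
    exact h8

/-- The index of a place with respect to the upper half plane: `3` exactly at the elliptic points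
of order three. -/
structure Idx (ι : L →+* ℂ) (σ : ℍ) (v : Place L (FF L M)) (e : ℕ) : Prop where
  pos : 0 < e
  val : ∀ x : FF L M, x ≠ 0 → valMer σ (toMer ι M x) = exp (-((e : ℤ) * v.ord x))
  ell : e = 3 → ∃ γ ∈ Gamma0 M, γ • σ = σ ∧ γ 0 0 + γ 1 1 = 1
  ord : 0 < v.ord (jF L M) → v.ord (jF L M) = 3 ∨ e = 3

theorem Idx.unique {σ : ℍ} {v : Place L (FF L M)} {e e' : ℕ} (h : Idx ι σ v e)
    (h' : Idx ι σ v e') : e = e' := by
  obtain ⟨x, hx0, hx⟩ := exists_ord_one v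
  have h1 := (h.val x hx0).symm.trans (h'.val x hx0)
  rw [hx, exp_inj] at h1
  omega

theorem trace_conj (g : SL(2, ℤ)) : (g * ((ModularGroup.S * ModularGroup.T) * g⁻¹)) 0 0 +
    (g * ((ModularGroup.S * ModularGroup.T) * g⁻¹)) 1 1 = 1 := by
  have h9 : Matrix.trace ((g * ((ModularGroup.S * ModularGroup.T) * g⁻¹) : SL(2, ℤ)) :
      Matrix (Fin 2) (Fin 2) ℤ) = 1 := by
    rw [Matrix.SpecialLinearGroup.coe_mul, Matrix.trace_mul_comm,
      ← Matrix.SpecialLinearGroup.coe_mul, mul_assoc, inv_mul_cancel, mul_one]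
    rfl
  rw [Matrix.trace_fin_two] at h9
  exact h9

/-- existence of the index -/
theorem exists_idx {σ : ℍ} {v : Place L (FF L M)} (hv : IsPt ι σ v) : ∃ e, Idx ι σ v e := by
  obtain ⟨a, ha, ha0⟩ := hv.jInv_eq
  have hj0 : 0 < v.ord (jF L M) → jInv σ = 0 := by
    intro h
    have h1 : jF L M - algebraMap L (FF L M) 0 = jF L M := by rw [map_zero, sub_zero]
    have h3 : jF L M ≠ 0 := by
      intro h3
      rw [h3] at h
      simp at h
    have h2 := (hv.lt_one_iff h3).mpr h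
    rw [← h1, valMer_toMer_jF_sub, map_zero] at h2
    exact h2
  rcases eq_or_ne (jInv σ) 0 with h0 | h0
  · -- over `j = 0`
    have hτ : jInv rho = ι (0 : L) := by
      rw [map_zero]; exact Fermat.Agent.JInv.jInv_rho
    obtain ⟨g, hg⟩ := Fermat.Agent.JInv.jInv_eq_iff.1
      (show jInv rho = jInv σ by rw [h0]; exact Fermat.Agent.JInv.jInv_rho)
    obtain ⟨e, c, he, hc, hce, hval, hjc, hc1⟩ := idx_aux hv hτ ST_smul_rho
      (by rw [orderOf_derivAt_ST, ordJ_rho])
      (fun x => by rw [ordJ_rho]; exact fix_or_card M Nat.prime_three x (ST_pow_three_smul M x)) hg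
    rw [ordJ_rho] at hce
    have hjc' : v.ord (jF L M) = c := by
      rw [map_zero, sub_zero] at hjc
      exact hjc
    refine ⟨e, he, hval, fun h3 => ?_, fun _ => ?_⟩
    · have hc1' : c = 1 := by
        rw [h3] at hce
        omega
      refine ⟨_, hc1 hc1', ?_, trace_conj g⟩
      rw [mul_smul, mul_smul, ← hg, inv_smul_smul, ST_smul_rho]
    · rw [hjc']
      have hdvd : c ∣ 3 := ⟨e, hce.symm⟩
      rcases (Nat.dvd_prime Nat.prime_three).mp hdvd with h | h
      · right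
        rw [h] at hce
        omega
      · left
        exact_mod_cast h
  rcases eq_or_ne (jInv σ) 1728 with h2 | h2
  · have hτ : jInv UpperHalfPlane.I = ι (1728 : L) := by
      rw [Fermat.Agent.JInv.jInv_I]; exact (map_ofNat ι 1728).symm
    obtain ⟨g, hg⟩ := Fermat.Agent.JInv.jInv_eq_iff.1
      (show jInv UpperHalfPlane.I = jInv σ by rw [h2]; exact Fermat.Agent.JInv.jInv_I)
    obtain ⟨e, c, he, hc, hce, hval, hjc, hc1⟩ := idx_aux hv hτ Fermat.Agent.JInv.S_smul_I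
      (by rw [orderOf_derivAt_S, ordJ_I])
      (fun x => by rw [ordJ_I]; exact fix_or_card M Nat.prime_two x (S_pow_two_smul M x)) hg
    rw [ordJ_I] at hce
    refine ⟨e, he, hval, fun h3 => ?_, fun hpos => absurd (hj0 hpos) h0⟩
    rw [h3] at hce
    omega
  · have hgen := jInv_generic h0 h2
    have hJ := ordJ_generic hgen.1 hgen.2
    obtain ⟨e, c, he, hc, hce, hval, hjc, hc1⟩ := idx_aux hv ha (one_smul _ _)
      (by rw [orderOf_derivAt_one, hJ])
      (fun x => Or.inl (one_smul _ _)) (one_smul _ σ)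
    rw [hJ] at hce
    refine ⟨e, he, hval, fun h3 => ?_, fun hpos => absurd (hj0 hpos) h0⟩
    rw [h3] at hce
    omega

end Fermat.Agent.SM3
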