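import Fermat.Agent.SM3.EllC
import Fermat.Agent.SM3b.Ell
import Fermat.Agent.ZAL.THecke
import Fermat.Agent.BadRed.CPConc
import Fermat.Agent.HeckeRed.Degen

/-!
# The Hecke operator at elliptic points of order three, modulo three, characteristic zero
-/

set_option autoImplicit false
set_option linter.unusedSectionVars false
set_option linter.style.haveILetI false

noncomputable section

open UpperHalfPlane Function ModularCurve Filter ModularForm AlgebraicCurve WithZero
  CongruenceSubgroup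
open scoped Manifold MatrixGroups Topology ModularForm

namespace Fermat.Agent.SM3

open Fermat.Agent.X0Places Fermat.Agent.FunField Fermat.Agent.FunField.PlaceLemmas
open Fermat.Agent.TorsCmp Fermat.Agent.GalJ Fermat.Agent.Degen
open Fermat.Agent.ZAL
open AlgebraicCurve.SemilinearAut
open Matrix.SpecialLinearGroup (mapGL)
open Fermat.Agent.JInv (rho jInv)

variable {L : Type*} [Field L] [Algebra ℚ L] [IsAlgClosed L] {ι : L →+* ℂ}
variable {M : ℕ} [NeZero M] {ℓ : ℕ} [NeZero ℓ]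

/-- the two degeneracy maps agree at elliptic points of order three -/
theorem res_alpha_eq_res_beta {σ : ℍ} {R : Place L (FF L (M * ℓ))} (hR : IsPt ι σ R)
    (h : Idx ι σ R 3) : res (heckeAlphaBar L M ℓ) R = res (heckeBetaBar L M ℓ) R := by
  obtain ⟨γ, hγ, hγσ, htr⟩ := h.ell rfl
  obtain ⟨g, hg, hgσ⟩ := SM3b.exists_gamma0_smul_eq_one (NeZero.pos ℓ) hγ htr hγσ
  have h1 := (isPt_res_alpha hR).gamma hg
  have h2 := isPt_res_beta hR
  have h3 : g • σ = heckeDiagMatrix ℓ • σ := by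
    apply UpperHalfPlane.ext
    rw [hgσ, coe_heckeDiagMatrix_smul (NeZero.ne ℓ)]
  rw [h3] at h1
  exact h1.unique h2

/-- multiplicativity of the index -/
theorem idx_mul {σ : ℍ} {R : Place L (FF L (M * ℓ))} {e e' : ℕ} (hR : Idx ι σ R e)
    (hx : Idx ι (heckeDiagMatrix ℓ • σ) (res (heckeBetaBar L M ℓ) R) e') :
    e' = e * Place.ramificationIndexAlong (heckeBetaBar L M ℓ) R := by
  obtain ⟨x, hx0, hx1⟩ := exists_ord_one (res (heckeBetaBar L M ℓ) R)
  have h1 := ord_res (heckeBetaBar L M ℓ) R x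
  rw [hx1, mul_one] at h1
  have hβ0 : heckeBetaBar L M ℓ x ≠ 0 := by rwa [map_ne_zero]
  have h3 := hR.val _ hβ0
  rw [toMer_beta, valMer_compG _ (det_heckeDiagMatrix_pos ℓ), hx.val _ hx0, hx1, h1, exp_inj] at h3
  have h4 : ((e' : ℕ) : ℤ) = ((e * Place.ramificationIndexAlong (heckeBetaBar L M ℓ) R : ℕ) : ℤ) := by
    push_cast
    linarith
  exact_mod_cast h4

/-- the places over an elliptic point -/
theorem res_alpha_or {σ : ℍ} {R : Place L (FF L (M * ℓ))} (hR : IsPt ι σ R)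
    {v : Place L (FF L M)} (hv : res (heckeBetaBar L M ℓ) R = v) (h0 : 0 < v.ord (jF L M))
    (h3 : ¬ (3 : ℤ) ∣ v.ord (jF L M)) : res (heckeAlphaBar L M ℓ) R = v ∨
      Place.ramificationIndexAlong (heckeBetaBar L M ℓ) R = 3 := by
  obtain ⟨e, he⟩ := exists_idx hR
  have hv' : IsPt ι (heckeDiagMatrix ℓ • σ) v := hv ▸ isPt_res_beta hR
  obtain ⟨e', he'⟩ := exists_idx hv'
  have h1 : e' = 3 := by
    rcases he'.ord h0 with h | h
    · exact absurd (by rw [h]) h3
    · exact h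
  subst h1
  have h2 := idx_mul he (hv.symm ▸ he')
  have hdvd : e ∣ 3 := ⟨_, h2⟩
  rcases (Nat.dvd_prime Nat.prime_three).mp hdvd with h | h
  · right
    rw [h, one_mul] at h2
    exact h2.symm
  · left
    subst h
    rw [← hv]
    exact res_alpha_eq_res_beta hR he

theorem jF_pole_E {K : Type*} [Field K] [IsAlgClosed K] {N r : ℕ} [NeZero N] [Fact r.Prime]
    {E : IntermediateField K (LaurentSeries K)} (hE : E = modularFunctionFieldFullC K (N * r))
    {x y : E} (hx : (x : LaurentSeries K) = jqModC K)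
    (hy : (y : LaurentSeries K) = qExpand K r (jqModC K)) (v : Place K E) (h : ¬ v.ord x < 0) :
    ¬ v.ord y < 0 := by
  subst hE
  have h1 : x = HeckeRed.jF K (N * r) := Subtype.ext hx
  have h2 : y = BadRed.CP.jrF K N r := Subtype.ext hy
  subst h1 h2
  exact BadRed.CP.jF_pole_reg v h

/-- `j(z)` and `j(ℓ z)` have the same poles -/
theorem pole_iff (ι : L →+* ℂ) (hℓ : ℓ.Prime) (hℓM : ¬ ℓ ∣ M) (R : Place L (FF L (M * ℓ))) :
    R.ord (jF L (M * ℓ)) < 0 ↔ R.ord (heckeBetaBar L M ℓ (jF L M)) < 0 := by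
  have hF : Fact ℓ.Prime := ⟨hℓ⟩
  have h : ExDiv ℓ (M * ℓ) := ⟨dvd_mul_left _ _, by
    rw [Nat.mul_div_cancel _ hℓ.pos]
    exact (Nat.Prime.coprime_iff_not_dvd hℓ).mpr hℓM⟩
  have : NeZero (star 1 ℓ) := ⟨(star_pos one_pos hℓ.pos).ne'⟩
  have hstar : star 1 ℓ = ℓ * 1 := by simp [ZAL.star]
  have hw : wF ι h (jF L (M * ℓ)) = heckeBetaBar L M ℓ (jF L M) := by
    have i1 : NeZero (ℓ * 1) := ⟨by rw [mul_one]; exact hℓ.ne_zero⟩
    rw [← jdF_one, wF_jdF, ← jdF_one, beta_jdF M ℓ 1 (one_dvd M) (by rw [mul_one]; exact h.dvd)]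
    exact jdF_congr hstar _ _
  have h1 := BadRed.CP.pole_iff_of_involution (wF ι h) (wF_wF ι h) (jF L (M * ℓ))
    (fun v hv => by
      rw [hw]
      exact jF_pole_E (HeckeRed.laurentBaseChange_full L (M * ℓ))
        (X0Places.coe_jF L (M * ℓ)) (by
          rw [coe_heckeBetaBar, X0Places.coe_jF]) v hv) R
  rw [hw] at h1
  exact h1

open Classical in
/-- **the Hecke operator at elliptic points of order three, modulo three** -/
theorem TD_single (ι : L →+* ℂ) (hℓ : ℓ.Prime) (hℓM : ¬ ℓ ∣ M) {v : Place L (FF L M)}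
    (h0 : 0 < v.ord (jF L M)) (h3 : ¬ (3 : ℤ) ∣ v.ord (jF L M)) :
    ∃ E : Divisor L (FF L M), TD L M ℓ (Finsupp.single v 1) =
      ((ℓ : ℤ) + 1) • Finsupp.single v 1 + (3 : ℤ) • E := by
  have hF : Fact ℓ.Prime := ⟨hℓ⟩
  set F := Place.fiberAlong (heckeBetaBar L M ℓ) (HeckeRed.betaInt L M ℓ) v with hFdef
  have key : ∀ W ∈ F, ∃ E : Divisor L (FF L M), Finsupp.single
      (W.restrictAlong (heckeAlphaBar L M ℓ) (HeckeRed.alphaInt L M ℓ))
      ((W.ramificationIndexAlong (heckeBetaBar L M ℓ) : ℤ) *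
        W.inertiaDegAlong (heckeAlphaBar L M ℓ) (HeckeRed.alphaInt L M ℓ)) =
      ((W.ramificationIndexAlong (heckeBetaBar L M ℓ) : ℤ)) • Finsupp.single v 1 + (3 : ℤ) • E := by
    intro W hW
    have hWv : res (heckeBetaBar L M ℓ) W = v := Place.mem_fiberAlong.mp hW
    rw [inertiaDegAlong_eq_one, Nat.cast_one, mul_one]
    have hb : 0 < W.ord (heckeBetaBar L M ℓ (jF L M)) := by
      rw [ord_res, hWv]
      exact mul_pos (by exact_mod_cast ramificationIndexAlong_pos (heckeBetaBar L M ℓ) W) h0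
    have hreg : 0 ≤ W.ord (jF L (M * ℓ)) := by
      by_contra hcon
      have := (pole_iff ι hℓ hℓM W).mp (not_le.mp hcon)
      omega
    obtain ⟨σ, hσ⟩ := exists_isPt ι W hreg
    rcases res_alpha_or hσ hWv h0 h3 with h | h
    · refine ⟨0, ?_⟩
      have h' : W.restrictAlong (heckeAlphaBar L M ℓ) (HeckeRed.alphaInt L M ℓ) = v := h
      rw [h', smul_zero, add_zero, Finsupp.smul_single, smul_eq_mul, mul_one]
    · refine ⟨Finsupp.single (W.restrictAlong (heckeAlphaBar L M ℓ) (HeckeRed.alphaInt L M ℓ)) 1 -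
        Finsupp.single v 1, ?_⟩
      have e : ∀ x : Place L (FF L M), (Finsupp.single x (3 : ℤ) : Divisor L (FF L M)) =
          (3 : ℤ) • Finsupp.single x 1 := fun x => by
        rw [Finsupp.smul_single, smul_eq_mul, mul_one]
      rw [h, Nat.cast_ofNat, e, smul_sub, add_sub_cancel]
  choose! E hE using key
  refine ⟨∑ W ∈ F, E W, ?_⟩
  have h1 : TD L M ℓ (Finsupp.single v 1) = ∑ W ∈ F, Finsupp.single
      (W.restrictAlong (heckeAlphaBar L M ℓ) (HeckeRed.alphaInt L M ℓ))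
      ((W.ramificationIndexAlong (heckeBetaBar L M ℓ) : ℤ) *
        W.inertiaDegAlong (heckeAlphaBar L M ℓ) (HeckeRed.alphaInt L M ℓ)) :=
    HeckeRed.correspondence_single _ _ _ _ v
  rw [h1, Finset.sum_congr rfl hE, Finset.sum_add_distrib, ← Finset.sum_smul, Finset.smul_sum]
  congr 2
  have hL0 : ((M * ℓ : ℕ) : L) ≠ 0 := by
    have : CharZero L := algebraRat.charZero L
    exact Nat.cast_ne_zero.mpr (mul_ne_zero (NeZero.ne M) hℓ.ne_zero)
  have h4 := HeckeRed.finrankAlong_beta_of_not_dvd (HeckeRed.laurentBaseChange_full L M)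
    (HeckeRed.laurentBaseChange_full L (M * ℓ)) hL0 (heckeBetaBar L M ℓ) (coe_heckeBetaBar M ℓ) hℓM
  have h5 : Divisor.degree (TD L M ℓ (Finsupp.single v 1)) = (ℓ : ℤ) + 1 := by
    have h6 := Divisor.degree_correspondence (heckeBetaBar L M ℓ) (heckeAlphaBar L M ℓ)
      (HeckeRed.betaInt L M ℓ) (HeckeRed.alphaInt L M ℓ)
      (HeckeRed.fundamentalIdentityAlong (heckeBetaBar L M ℓ) (HeckeRed.betaInt L M ℓ)
        (HeckeRed.finiteAlong_of_isFF _)) (Finsupp.single v 1)
    refine h6.trans ?_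
    rw [h4, Divisor.degree_single, Deuring.deg_eq_one]
    push_cast
    ring
  rw [← h5, h1, map_sum]
  refine Finset.sum_congr rfl fun W _ => ?_
  rw [Divisor.degree_single, Deuring.deg_eq_one, inertiaDegAlong_eq_one]
  push_cast
  ring

end Fermat.Agent.SM3
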