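import Fermat.Agent.HeckeRed.Corr
import Fermat.Agent.FunField.DegreeFormula
import Fermat.Agent.Deuring.Tower

/-!
# Specialisation of the divisors of zeros and poles
-/

set_option autoImplicit false

noncomputable section

open AlgebraicCurve

namespace Fermat.Agent.SM3

open Fermat.Agent.FunField Fermat.Agent.Deuring Fermat.Agent.HeckeRed

variable {L k F F₁ : Type*} [Field L] [Field k] [Field F] [Field F₁] [Algebra L F]
  [Algebra k F₁] [IsFF L F] [IsFF k F₁] [IsAlgClosed L] [IsAlgClosed k]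

/-- poles specialise to poles, zeros to zeros -/
theorem mapDomain_poleDiv {𝔇 : Data L k F F₁} {r : Place L F → Place k F₁}
    (hr : IsReduction 𝔇 r) (f : 𝔇.O) (hf : 𝔇.res f ≠ 0)
    (hdeg : Divisor.degree (poleDiv (f : F) : Divisor L F) ≤
      Divisor.degree (poleDiv (𝔇.res f) : Divisor k F₁)) :
    Finsupp.mapDomain r (poleDiv (f : F) : Divisor L F) = poleDiv (𝔇.res f) ∧
      Finsupp.mapDomain r (zeroDiv (f : F) : Divisor L F) = zeroDiv (𝔇.res f) := by
  have h1 := hr.mapDomain_divOf f hf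
  rw [divOf_eq_sub, divOf_eq_sub] at h1
  have h2 : Finsupp.mapDomain r (zeroDiv (f : F) - poleDiv (f : F) : Divisor L F) =
      Finsupp.mapDomain r (zeroDiv (f : F)) - Finsupp.mapDomain r (poleDiv (f : F)) :=
    map_sub (Finsupp.mapDomain.addMonoidHom r) _ _
  rw [h2] at h1
  have hP0 : (0 : Divisor L F) ≤ poleDiv (f : F) := fun v => by simp
  have hZ := mapDomain_nonneg r (zeroDiv_nonneg (K := L) (f : F))
  have hP := mapDomain_nonneg r hP0
  have hle : (poleDiv (𝔇.res f) : Divisor k F₁) ≤ Finsupp.mapDomain r (poleDiv (f : F)) := by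
    intro v
    have h3 := DFunLike.congr_fun h1 v
    rw [Finsupp.sub_apply, Finsupp.sub_apply, zeroDiv_apply, poleDiv_apply] at h3
    have h4 : 0 ≤ Finsupp.mapDomain r (zeroDiv (f : F) : Divisor L F) v := hZ v
    have h5 : 0 ≤ Finsupp.mapDomain r (poleDiv (f : F) : Divisor L F) v := hP v
    rw [poleDiv_apply]
    omega
  have h6 : Finsupp.mapDomain r (poleDiv (f : F) : Divisor L F) = poleDiv (𝔇.res f) :=
    (eq_of_le_of_degree_le hle (by rw [degree_mapDomain]; exact hdeg)).symm
  refine ⟨h6, ?_⟩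
  rw [h6] at h1
  exact sub_left_injective h1

/-- a zero with order prime to three lifts to a zero with order prime to three -/
theorem exists_lift_zero {𝔇 : Data L k F F₁} {r : Place L F → Place k F₁}
    (hr : IsReduction 𝔇 r) (f : 𝔇.O) (hf : 𝔇.res f ≠ 0)
    (hdeg : Divisor.degree (poleDiv (f : F) : Divisor L F) ≤
      Divisor.degree (poleDiv (𝔇.res f) : Divisor k F₁)) {v : Place k F₁}
    (hv : 0 < v.ord (𝔇.res f)) {m : ℤ} (hm : ¬ m ∣ v.ord (𝔇.res f)) :
    ∃ x : Place L F, r x = v ∧ 0 < x.ord (f : F) ∧ ¬ m ∣ x.ord (f : F) := by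
  classical
  have h1 := DFunLike.congr_fun (mapDomain_poleDiv hr f hf hdeg).2 v
  rw [zeroDiv_apply, max_eq_left hv.le] at h1
  by_contra hcon
  push Not at hcon
  apply hm
  rw [← h1, Finsupp.mapDomain, Finsupp.sum_apply, Finsupp.sum]
  refine Finset.dvd_sum fun x hx => ?_
  rw [Finsupp.single_apply]
  split_ifs with h
  · rw [zeroDiv_apply]
    rcases lt_or_ge 0 (x.ord (f : F)) with h2 | h2
    · rw [max_eq_left h2.le]
      exact hcon x h h2
    · rw [max_eq_right h2]
      exact dvd_zero _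
  · exact dvd_zero _

end Fermat.Agent.SM3
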