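import Fermat.Agent.SM3.HeckeC
import Fermat.Agent.SM3.SpecPole
import Fermat.Agent.HeckeRed.Package
import Fermat.Agent.BadRed.Conc
import Fermat.Agent.Cusps.GenusQb

/-!
# The Hecke operator at elliptic points of order three, modulo three, residue field
-/

set_option autoImplicit false
set_option linter.unusedSectionVars false

noncomputable section

open AlgebraicCurve ModularCurve IntermediateField HahnSeries

namespace Fermat.Agent.SM3

open Fermat.Agent.FunField Fermat.Agent.ModDeg Fermat.Agent.ModPoly Fermat.Agent.Igusa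
  Fermat.Agent.Deuring Fermat.Agent.HeckeRed

section Concrete

variable {L : Type*} [Field L] [Algebra ℚ L] [IsAlgClosed L] (ι : L →+* ℂ) {A : ValuationSubring L}
  {κ : Type*} [Field κ] [IsAlgClosed κ] {π : A →+* κ} [IsLocalHom π] (hπ : Function.Surjective π)
  {N : ℕ} [NeZero N] (hN : (N : κ) ≠ 0)
  {r : Place L (laurentBaseChange L (modularFunctionFieldFull N)) →
    Place κ (modularFunctionFieldFullC κ N)} (hr : IsReduction (dat A π hπ N hN) r)

/-- `j` in the ring of integral functions -/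
def jO : (dat A π hπ N hN).O :=
  ⟨X0Places.jF L N, (mem_dat A π hπ N hN).mpr (by
    rw [X0Places.coe_jF]; exact (BadRed.gauss_jq (π := π)).choose)⟩

theorem res_jO : (dat A π hπ N hN).res (jO hπ hN) = HeckeRed.jF κ N := by
  apply Subtype.ext
  rw [dat_res]
  refine Eq.trans ?_ (BadRed.gauss_jq (A := A) (π := π)).choose_spec
  exact gaussRes_congr (X0Places.coe_jF L N)

include ι hr in
theorem exists_lift_jF {v : Place κ (modularFunctionFieldFullC κ N)}
    (h0 : 0 < v.ord (HeckeRed.jF κ N)) {m : ℤ} (hm : ¬ m ∣ v.ord (HeckeRed.jF κ N)) :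
    ∃ x : Place L (laurentBaseChange L (modularFunctionFieldFull N)), r x = v ∧
      0 < x.ord (X0Places.jF L N) ∧ ¬ m ∣ x.ord (X0Places.jF L N) := by
  have : CharZero L := algebraRat.charZero L
  have htr : Transcendental κ (HeckeRed.jF κ N) := HeckeRed.transcendental_jF _ _
  have hj0 : HeckeRed.jF κ N ≠ 0 := fun h => htr (by rw [h]; exact isAlgebraic_zero)
  refine exists_lift_zero hr (jO hπ hN) (by rwa [res_jO]) ?_ (by rwa [res_jO]) (by rwa [res_jO])
  rw [res_jO, degree_poleDiv htr,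
    degree_poleDiv (x := ((jO hπ hN : (dat A π hπ N hN).O) :
      laurentBaseChange L (modularFunctionFieldFull N))) (X0Places.jF_transcendental_aux ι N)]
  exact le_of_eq (congrArg _ ((X0Places.finrank_jF_psi L N).trans
    (BadRed.CP.finrank_jF κ N hN).symm))

variable {ℓ : ℕ}

include ι hr in
theorem corr_single [hF : Fact ℓ.Prime] (hℓN : ¬ ℓ ∣ N) (hℓ0 : (ℓ : κ) ≠ 0)
    {v : Place κ (modularFunctionFieldFullC κ N)}
    (h0 : 0 < v.ord (HeckeRed.jF κ N)) (h3 : ¬ (3 : ℤ) ∣ v.ord (HeckeRed.jF κ N)) :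
    ∃ E : Divisor κ (modularFunctionFieldFullC κ N),
      Divisor.correspondence (beta1 κ N ℓ) (alpha1 κ N ℓ) (HeckeRed.isIntegral_of_isFF _)
        (HeckeRed.isIntegral_of_isFF _) (Finsupp.single v 1) =
      ((ℓ : ℤ) + 1) • Finsupp.single v 1 + (3 : ℤ) • E := by
  have : CharZero L := algebraRat.charZero L
  have hL : ((N * ℓ : ℕ) : L) ≠ 0 :=
    Nat.cast_ne_zero.mpr (mul_ne_zero (NeZero.ne N) hF.out.ne_zero)
  have hκ : ((N * ℓ : ℕ) : κ) ≠ 0 := by
    rw [Nat.cast_mul]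
    exact mul_ne_zero hN hℓ0
  obtain ⟨x, hx, hx0, hx3⟩ := exists_lift_jF ι hπ hN hr h0 h3
  obtain ⟨E, hE⟩ := TD_single ι hF.out hℓN hx0 hx3
  have h1 := mapDomain_correspondence hr (heckeBetaBar L N ℓ) (heckeAlphaBar L N ℓ)
    (betaInt L N ℓ) (alphaInt L N ℓ) (finiteAlong_of_isFF _) (finiteAlong_of_isFF _)
    (beta1 κ N ℓ) (alpha1 κ N ℓ) (HeckeRed.isIntegral_of_isFF _) (HeckeRed.isIntegral_of_isFF _)
    (finiteAlong_of_isFF _) (finiteAlong_of_isFF _)
    (finrankAlong_beta_eq (HeckeRed.laurentBaseChange_full L N) (HeckeRed.laurentBaseChange_full L (N * ℓ)) rfl rfl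
      hL hκ _ _ (coe_heckeBetaBar N ℓ) (coe_beta1 κ N ℓ))
    (fun f _ => IsGauss.norm_compat (isGauss_dat A π hπ N hN) (isGauss_dat A π hπ (N * ℓ) hκ)
      (coe_heckeAlphaBar N ℓ) (coe_alpha1 κ N ℓ) (coe_heckeBetaBar N ℓ) (coe_beta1 κ N ℓ)
      (finiteAlong_of_isFF _) (finiteAlong_of_isFF _)
      (finrankAlong_alpha_eq (HeckeRed.laurentBaseChange_full L N) (HeckeRed.laurentBaseChange_full L (N * ℓ)) rfl rfl
        hL hκ _ _ (coe_heckeAlphaBar N ℓ) (coe_alpha1 κ N ℓ)) f) (Finsupp.single x 1)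
  refine ⟨Finsupp.mapDomain r E, ?_⟩
  rw [Finsupp.mapDomain_single, hx] at h1
  rw [← h1]
  have h2 : Finsupp.mapDomain r (Divisor.correspondence (heckeBetaBar L N ℓ)
      (heckeAlphaBar L N ℓ) (betaInt L N ℓ) (alphaInt L N ℓ) (Finsupp.single x 1)) =
      Finsupp.mapDomain r (((ℓ : ℤ) + 1) • Finsupp.single x 1 + (3 : ℤ) • E) :=
    congrArg _ hE
  rw [h2]
  have h3 : Finsupp.mapDomain r (((ℓ : ℤ) + 1) • Finsupp.single x 1 + (3 : ℤ) • E :
      Divisor L _) = ((ℓ : ℤ) + 1) • Finsupp.mapDomain r (Finsupp.single x 1) +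
        (3 : ℤ) • Finsupp.mapDomain r E := by
    have := (Finsupp.mapDomain.addMonoidHom (M := ℤ) r).map_add
      (((ℓ : ℤ) + 1) • Finsupp.single x 1) ((3 : ℤ) • E)
    rw [map_zsmul, map_zsmul] at this
    exact this
  rw [h3, Finsupp.mapDomain_single, hx]

end Concrete

section AbsDiv

variable {K F : Type*} [Field K] [Field F] [Algebra K F]

/-- divisors supported modulo `m` on eigen-places -/
theorem exists_of_single {m c : ℤ} (T : Divisor K F →+ Divisor K F) (D : Divisor K F)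
    (h : ∀ v : Place K F, ¬ m ∣ D v → ∃ E : Divisor K F,
      T (Finsupp.single v 1) = c • Finsupp.single v 1 + m • E) :
    ∃ E : Divisor K F, T D = c • D + m • E := by
  classical
  have key : ∀ v : Place K F, ∃ E : Divisor K F,
      T (Finsupp.single v (D v)) = c • Finsupp.single v (D v) + m • E := by
    intro v
    have h1 : (Finsupp.single v (D v) : Divisor K F) = D v • Finsupp.single v 1 := by
      rw [Finsupp.smul_single, smul_eq_mul, mul_one]
    rw [h1, map_zsmul]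
    by_cases hv : m ∣ D v
    · obtain ⟨k, hk⟩ := hv
      refine ⟨k • T (Finsupp.single v 1) - (c * k) • Finsupp.single v 1, ?_⟩
      rw [hk]
      module
    · obtain ⟨E, hE⟩ := h v hv
      refine ⟨D v • E, ?_⟩
      rw [hE]
      module
  choose E hE using key
  refine ⟨∑ v ∈ D.support, E v, ?_⟩
  have h2 : D = ∑ v ∈ D.support, Finsupp.single v (D v) := (Finsupp.sum_single D).symm
  calc T D = ∑ v ∈ D.support, T (Finsupp.single v (D v)) := by
        conv_lhs => rw [h2]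
        rw [map_sum]
    _ = ∑ v ∈ D.support, (c • Finsupp.single v (D v) + m • E v) :=
        Finset.sum_congr rfl fun v _ => hE v
    _ = c • D + m • ∑ v ∈ D.support, E v := by
        rw [Finset.sum_add_distrib, ← Finset.smul_sum, ← Finset.smul_sum, ← h2]

end AbsDiv

section QbarCase

local notation "Qb" => AlgebraicClosure ℚ

theorem rrLarge_of_field_eq {K Ω : Type*} [Field K] [Field Ω] [Algebra K Ω]
    {E E' : IntermediateField K Ω} (h : E = E') {g : ℤ} (hE : RRLarge K E g) :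
    RRLarge K E' g := by
  subst h; exact hE

variable (A : ValuationSubring (AlgebraicClosure ℚ)) {κ : Type*} [Field κ] [IsAlgClosed κ]
  (π : A →+* κ) [IsLocalHom π] (hπ : Function.Surjective π) (N : ℕ) [NeZero N]
  (hN : (N : κ) ≠ 0)

include hπ hN in
/-- **Wild places.** -/
theorem corr_single_qb {ℓ : ℕ} [NeZero ℓ] (hℓ : ℓ.Prime) (hℓN : ¬ ℓ ∣ N) (hℓ0 : (ℓ : κ) ≠ 0)
    {v : Place κ (modularFunctionFieldFullC κ N)}
    (h0 : 0 < v.ord (HeckeRed.jF κ N)) (h3 : ¬ (3 : ℤ) ∣ v.ord (HeckeRed.jF κ N)) :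
    ∃ E : Divisor κ (modularFunctionFieldFullC κ N),
      Divisor.correspondence (beta1 κ N ℓ) (alpha1 κ N ℓ) (HeckeRed.isIntegral_of_isFF _)
        (HeckeRed.isIntegral_of_isFF _) (Finsupp.single v 1) =
      ((ℓ : ℤ) + 1) • Finsupp.single v 1 + (3 : ℤ) • E := by
  have hF : Fact ℓ.Prime := ⟨hℓ⟩
  have hg := Cusps.genusFF_eq_Qb A π hπ N hN
  have hRR : RRLarge Qb (laurentBaseChange Qb (modularFunctionFieldFull N))
      (genusFF κ (modularFunctionFieldFullC κ N)) := by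
    rw [hg]
    exact rrLarge_of_field_eq (HeckeRed.laurentBaseChange_full Qb N).symm
      TorsInj.rrLarge_genusFF
  have hRR₁ := TorsInj.rrLarge_genusFF (K := κ) (F := modularFunctionFieldFullC κ N)
  obtain ⟨r, hr1, hr2⟩ := (dat A π hπ N hN).exists_reduction hRR hRR₁
  exact corr_single (IsAlgClosed.lift (R := ℚ) (S := Qb) (M := ℂ)).toRingHom hπ hN ⟨hr1, hr2⟩
    hℓN hℓ0 h0 h3

variable {N}

include hπ hN in
/-- **Wild divisors.** -/
theorem corr_divisor_qb {ℓ : ℕ} [NeZero ℓ] (hℓ : ℓ.Prime) (hℓN : ¬ ℓ ∣ N) (hℓ0 : (ℓ : κ) ≠ 0)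
    (D : Divisor κ (modularFunctionFieldFullC κ N))
    (hD : ∀ v, ¬ (3 : ℤ) ∣ D v →
      0 < v.ord (HeckeRed.jF κ N) ∧ ¬ (3 : ℤ) ∣ v.ord (HeckeRed.jF κ N)) :
    ∃ E : Divisor κ (modularFunctionFieldFullC κ N),
      Divisor.correspondence (beta1 κ N ℓ) (alpha1 κ N ℓ) (HeckeRed.isIntegral_of_isFF _)
        (HeckeRed.isIntegral_of_isFF _) D = ((ℓ : ℤ) + 1) • D + (3 : ℤ) • E :=
  exists_of_single _ D fun v hv =>
    corr_single_qb A π hπ N hN hℓ hℓN hℓ0 (hD v hv).1 (hD v hv).2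

include hπ hN in
/-- eigenvalues of wild divisors are Eisenstein modulo `3` -/
theorem dvd_of_eigen {ℓ : ℕ} [NeZero ℓ] (hℓ : ℓ.Prime) (hℓN : ¬ ℓ ∣ N) (hℓ0 : (ℓ : κ) ≠ 0)
    {D H : Divisor κ (modularFunctionFieldFullC κ N)} {a : ℤ}
    (hD : ∀ v, ¬ (3 : ℤ) ∣ D v →
      0 < v.ord (HeckeRed.jF κ N) ∧ ¬ (3 : ℤ) ∣ v.ord (HeckeRed.jF κ N))
    (hT : Divisor.correspondence (beta1 κ N ℓ) (alpha1 κ N ℓ) (HeckeRed.isIntegral_of_isFF _)
        (HeckeRed.isIntegral_of_isFF _) D = a • D + (3 : ℤ) • H)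
    (v : Place κ (modularFunctionFieldFullC κ N)) : (3 : ℤ) ∣ (a - (ℓ + 1)) * D v := by
  obtain ⟨E, hE⟩ := corr_divisor_qb A π hπ hN hℓ hℓN hℓ0 D hD
  have h1 := hT.symm.trans hE
  have h2 := DFunLike.congr_fun h1 v
  rw [Finsupp.add_apply, Finsupp.add_apply, Finsupp.smul_apply, Finsupp.smul_apply,
    Finsupp.smul_apply, Finsupp.smul_apply, smul_eq_mul, smul_eq_mul, smul_eq_mul,
    smul_eq_mul] at h2
  exact ⟨E v - H v, by linarith⟩

include hπ hN in
/-- the same for the divisor of a function, literally in the shape of `LLw.efin` -/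
theorem dvd_of_eigen_divOf {ℓ : ℕ} [NeZero ℓ] (hℓ : ℓ.Prime) (hℓN : ¬ ℓ ∣ N)
    (hℓ0 : (ℓ : κ) ≠ 0) {fb hb : modularFunctionFieldFullC κ N} {a : ℤ}
    (hD : ∀ v : Place κ (modularFunctionFieldFullC κ N), ¬ (3 : ℤ) ∣ v.ord fb →
      0 < v.ord (HeckeRed.jF κ N) ∧ ¬ (3 : ℤ) ∣ v.ord (HeckeRed.jF κ N))
    (hT : Divisor.correspondence (beta1 κ N ℓ) (alpha1 κ N ℓ)
        (HeckeRed.isIntegral_of_isFF (beta1 κ N ℓ)) (HeckeRed.isIntegral_of_isFF (alpha1 κ N ℓ))
        (divOf fb) = a • (divOf fb : Divisor κ (modularFunctionFieldFullC κ N)) +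
          (3 : ℤ) • divOf hb)
    (v : Place κ (modularFunctionFieldFullC κ N)) : (3 : ℤ) ∣ (a - (ℓ + 1)) * v.ord fb := by
  have h1 := dvd_of_eigen A π hπ hN hℓ hℓN hℓ0 (D := divOf fb) (H := divOf hb)
    (fun w hw => hD w (by rwa [divOf_apply] at hw)) hT v
  rwa [divOf_apply] at h1

end QbarCase

end Fermat.Agent.SM3
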